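import Fermat.Agent.S15.W.Mod

/-!
# S41 / D / Level : the degeneracy maps `pullA`, `pullB`, `nmKum`, `wKum` between `Kum M e` and `Kum (M*q) e`

* `nmKum_pullA`      : `nm ∘ pullA = q + 1`;
* `nmKum_pullB`      : `nm ∘ pullB = T_q`  (`W.heckeKum_eq`);
* `heckeKum_pullA/B` : `T_ℓ` (`ℓ ∤ M q`) commutes with `pullA`, `pullB`;
* `e1N_pullB`        : the adjoint of `pullB` is `nm ∘ w`.
-/

set_option autoImplicit false

open AlgebraicCurve ModularCurve

namespace Fermat.Agent.S41.D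

open Fermat.Agent.ES Fermat.Agent.SS Fermat.Agent.S15.W

noncomputable section

/-! ### `heckeSer` and `V_p` (copy of `S44.XD.heckeSer_Vq`, to keep the closure small) -/

theorem twist_Vq {K : Type*} [Field K] (p : ℕ) [NeZero p] (z : Kˣ) (x : LaurentSeries K) :
    twist z (Vq K p x) = Vq K p (twist (z ^ p) x) := by
  ext n
  rw [Fermat.Agent.ES.twist_coeff]
  by_cases hn : (p : ℤ) ∣ n
  · obtain ⟨m, rfl⟩ := hn
    rw [qExpand_coeff_mul, qExpand_coeff_mul, Fermat.Agent.ES.twist_coeff, zpow_mul, zpow_natCast]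
  · rw [qExpand_coeff_of_not_dvd p _ hn, qExpand_coeff_of_not_dvd p _ hn, mul_zero]

theorem pow_bijective {K : Type*} [Field K] (ℓ p : ℕ) [NeZero ℓ] (h : ℓ.Coprime p) :
    Function.Bijective (fun z : rootsOfUnity ℓ K => z ^ p) := by
  refine Finite.injective_iff_bijective.mp ?_
  intro z w hzw
  have hzw' : z ^ p = w ^ p := hzw
  have h1 : (z * w⁻¹) ^ p = 1 := by rw [mul_pow, inv_pow, hzw', mul_inv_cancel]
  have h2 : (z * w⁻¹) ^ ℓ = 1 := by
    apply Subtype.ext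
    exact (mem_rootsOfUnity _ _).mp (z * w⁻¹).2
  have h3 := pow_gcd_eq_one.mpr ⟨h2, h1⟩
  rw [Nat.Coprime.gcd_eq_one h, pow_one] at h3
  exact mul_inv_eq_one.mp h3

theorem twistProd_Vq {K : Type*} [Field K] (ℓ p : ℕ) [NeZero ℓ] [NeZero p] (h : ℓ.Coprime p)
    (x : LaurentSeries K) : twistProd ℓ (Vq K p x) = Vq K p (twistProd ℓ x) := by
  unfold twistProd
  rw [map_prod]
  simp only [twist_Vq]
  exact Fintype.prod_bijective _ (pow_bijective (K := K) ℓ p h) _ _ (fun z => rfl)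

theorem contract_Vq {K : Type*} [Field K] (ℓ p : ℕ) [NeZero ℓ] [NeZero p] (h : ℓ.Coprime p)
    (y : LaurentSeries K) : contract ℓ (Vq K p y) = Vq K p (contract ℓ y) := by
  ext n
  rw [Fermat.Agent.ES.contract_coeff]
  by_cases hn : (p : ℤ) ∣ n
  · obtain ⟨m, rfl⟩ := hn
    rw [qExpand_coeff_mul, Fermat.Agent.ES.contract_coeff, mul_left_comm, qExpand_coeff_mul]
  · rw [qExpand_coeff_of_not_dvd p _ hn, qExpand_coeff_of_not_dvd p]
    intro hd
    have hcop : IsCoprime (p : ℤ) (ℓ : ℤ) := Nat.isCoprime_iff_coprime.mpr h.symm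
    exact hn (hcop.dvd_of_dvd_mul_left hd)

theorem heckeSer_Vq {K : Type*} [Field K] (ℓ p : ℕ) [NeZero ℓ] [NeZero p] (h : ℓ.Coprime p)
    (x : LaurentSeries K) : heckeSer ℓ (Vq K p x) = Vq K p (heckeSer ℓ x) := by
  have hne : NeZero (ℓ * p) := ⟨mul_ne_zero (NeZero.ne ℓ) (NeZero.ne p)⟩
  have hne' : NeZero (p * ℓ) := ⟨mul_ne_zero (NeZero.ne p) (NeZero.ne ℓ)⟩
  rw [heckeSer, heckeSer, map_mul, normSer, normSer, twistProd_Vq ℓ p h,
    contract_Vq ℓ p h, qExpand_qExpand, qExpand_qExpand, qExpand_congr (mul_comm ℓ p)]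

/-! ### `e1NHom` versus `e1N` -/

theorem hom_eq_zero_iff {N e : ℕ} [NeZero N] (he : e ≠ 0) (a b : Kum N e) :
    e1NHom he a b = 0 ↔ e1N a b = 1 := by
  rw [← e1NHom_apply he a b]
  constructor
  · intro h
    rw [h]
    rfl
  · intro h
    have h1 : ((e1NHom he a b).toMul : Qbˣ) = 1 := Units.ext h
    exact h1

theorem hom_eq_iff {N e : ℕ} [NeZero N] (he : e ≠ 0) (a b a' b' : Kum N e) :
    e1NHom he a b = e1NHom he a' b' ↔ e1N a b = e1N a' b' := by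
  rw [← e1NHom_apply he a b, ← e1NHom_apply he a' b']
  constructor
  · intro h
    rw [h]
  · intro h
    have h1 : ((e1NHom he a b).toMul : Qbˣ) = (e1NHom he a' b').toMul := Units.ext h
    exact h1

/-! ### the degeneracy maps -/

variable {M q e : ℕ} [NeZero M] [NeZero q]

/-- `nm ∘ α^* = deg α = q + 1`. -/
theorem normA_alpha (hq : q.Prime) (hqM : ¬ q ∣ M) (f : FF M) :
    normA M q (heckeAlphaBar Qb M q f) = f ^ (q + 1) := by
  let _ := algebraAlong (heckeAlphaBar Qb M q)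
  have h := Algebra.norm_algebraMap (R := FF M) (S := FF (M * q)) f
  have h2 : Module.finrank (FF M) (FF (M * q)) = q + 1 := finrankAlong_heckeAlpha M q hq hqM
  rw [h2] at h
  exact h

theorem nmKum_pullA (hq : q.Prime) (hqM : ¬ q ∣ M) (a : Kum M e) :
    nmKum M q e (pullA M q e a) = (q + 1) • a := by
  obtain ⟨f, rfl⟩ := Kum.mk_surjective a
  rw [pullA_mk, nmKum_mk, ← Kum.mk_pow]
  exact mk_congr (normA_alpha hq hqM _)

theorem nmKum_pullB (hq : q.Prime) (hqM : ¬ q ∣ M) (a : Kum M e) :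
    nmKum M q e (pullB M q e a) = heckeKum M q hq hqM e a :=
  (heckeKum_eq hq hqM a).symm

/-- `T_ℓ` commutes with `pullA`. -/
theorem heckeKum_pullA {ℓ : ℕ} [NeZero ℓ] (hℓ : ℓ.Prime) (hℓM : ¬ ℓ ∣ M) (hℓMq : ¬ ℓ ∣ M * q)
    (a : Kum M e) :
    heckeKum (M * q) ℓ hℓ hℓMq e (pullA M q e a) = pullA M q e (heckeKum M ℓ hℓ hℓM e a) := by
  obtain ⟨f, rfl⟩ := Kum.mk_surjective a
  rw [pullA_mk, heckeKum_mk, heckeKum_mk, pullA_mk]
  refine mk_congr (Subtype.ext ?_)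
  rw [coe_heckeU, coe_heckeF, coe_alphaU, coe_alphaU, coe_heckeAlphaBar, coe_heckeAlphaBar,
    coe_heckeU, coe_heckeF]

/-- `T_ℓ` commutes with `pullB`. -/
theorem heckeKum_pullB {ℓ : ℕ} [NeZero ℓ] (hℓ : ℓ.Prime) (hℓM : ¬ ℓ ∣ M) (hℓMq : ¬ ℓ ∣ M * q)
    (a : Kum M e) :
    heckeKum (M * q) ℓ hℓ hℓMq e (pullB M q e a) = pullB M q e (heckeKum M ℓ hℓ hℓM e a) := by
  obtain ⟨f, rfl⟩ := Kum.mk_surjective a
  rw [pullB_mk, heckeKum_mk, heckeKum_mk, pullB_mk]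
  refine mk_congr (Subtype.ext ?_)
  have hcop : ℓ.Coprime q := by
    rw [Nat.Prime.coprime_iff_not_dvd hℓ]
    exact fun h => hℓMq (Dvd.dvd.mul_left h M)
  rw [coe_heckeU, coe_heckeF, coe_betaU, coe_betaU, coe_heckeBetaBar, coe_heckeBetaBar,
    coe_heckeU, coe_heckeF]
  exact heckeSer_Vq ℓ q hcop _

/-- the adjoint of `pullB` is `nm ∘ w`. -/
theorem e1N_pullB (he : e ≠ 0) {w : FF (M * q) →ₐ[Qb] FF (M * q)} (hw : IsAL M q w) (hq : q.Prime)
    (a : Kum M e) (b : Kum (M * q) e) :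
    e1N (pullB M q e a) b = e1N a (nmKum M q e (wKum hw hq e b)) := by
  rw [← e1N_pullA he, ← e1N_wKum he hw hq (pullB M q e a) b, wKum_pullB]

end

end Fermat.Agent.S41.D
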