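import Fermat.Agent.S41.D.Level
import Fermat.Agent.S44.Soft.Defs

/-!
# S41 / D / Main : the pairing argument (block D of S41)

`V = Kum N p`, `V' = Kum (N*r) p`, `x ∈ V` with `T_r x = eps (r+1) x`, `y := pullA x - eps • pullB x`.

* `nmKum_y`, `nmKum_wKum_y` : both traces of `y` vanish;
* `e1NHom_pull_y`           : `y ⊥ pullA V + pullB V`;
* `mem_XX_y`                : `y` is an eigenvector at level `N r`;
* `e1NHom_lift`             : `⟨P(T) v, y⟩ = P(a) ⟨v, y⟩`;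
* `eq_zero` (IF-D)          : if `Pol(T) V' ⊆ pullA V + pullB V` with `p ∤ Pol(a)` then `y = 0`.
-/

set_option autoImplicit false

open AlgebraicCurve ModularCurve

namespace Fermat.Agent.S41.D

open Fermat.Agent.ES Fermat.Agent.SS Fermat.Agent.S15.W Fermat.Agent.S44.Soft

noncomputable section

variable {N r p : ℕ} [NeZero N] [NeZero r]

/-- the class `y = α^* x - eps β^* x`. -/
def yy (N r p : ℕ) [NeZero N] [NeZero r] (eps : ℤ) (x : Kum N p) : Kum (N * r) p :=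
  pullA N r p x - eps • pullB N r p x

theorem nmKum_yy (hr : r.Prime) (hrN : ¬ r ∣ N) {eps : ℤ} (heps : eps * eps = 1) {x : Kum N p}
    (hx : heckeKum N r hr hrN p x = (eps * ((r : ℤ) + 1)) • x) :
    nmKum N r p (yy N r p eps x) = 0 := by
  rw [yy, map_sub, map_zsmul, nmKum_pullA hr hrN, nmKum_pullB hr hrN, hx, smul_smul, ← mul_assoc,
    heps, one_mul, ← natCast_zsmul, sub_eq_zero]
  push_cast
  rfl

theorem nmKum_wKum_yy (hr : r.Prime) (hrN : ¬ r ∣ N) {w : FF (N * r) →ₐ[Qb] FF (N * r)}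
    (hw : IsAL N r w) {eps : ℤ} {x : Kum N p}
    (hx : heckeKum N r hr hrN p x = (eps * ((r : ℤ) + 1)) • x) :
    nmKum N r p (wKum hw hr p (yy N r p eps x)) = 0 := by
  rw [yy, map_sub, map_zsmul, wKum_pullA, wKum_pullB, map_sub, map_zsmul, nmKum_pullA hr hrN,
    nmKum_pullB hr hrN, hx, ← natCast_zsmul, smul_smul, sub_eq_zero]
  push_cast
  rfl

/-- `y` is orthogonal to the old classes. -/
theorem e1NHom_pull_yy (hp : p ≠ 0) (hr : r.Prime) (hrN : ¬ r ∣ N) {eps : ℤ}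
    (heps : eps * eps = 1) {x : Kum N p}
    (hx : heckeKum N r hr hrN p x = (eps * ((r : ℤ) + 1)) • x) (u₁ u₂ : Kum N p) :
    e1NHom hp (pullA N r p u₁ + pullB N r p u₂) (yy N r p eps x) = 0 := by
  obtain ⟨w, hw⟩ := exists_isAL N r hr hrN
  rw [hom_eq_zero_iff, e1N_add_left hp, e1N_pullA hp, e1N_pullB hp hw hr, nmKum_yy hr hrN heps hx,
    nmKum_wKum_yy hr hrN hw hx]
  have h0 : ∀ u : Kum N p, e1N u (0 : Kum N p) = 1 := fun u =>
    (hom_eq_zero_iff hp u 0).1 (map_zero _)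
  rw [h0, h0, one_mul]

/-- `y` is an eigenvector of the `T_ℓ` at level `N r`. -/
theorem yy_mem_XX {S S₀ : Finset ℕ}
    (hS₀ : S₀ ⊆ S) {a a₀ : ℕ → ℤ} (ha : ∀ ℓ, ℓ ∉ S → a₀ ℓ = a ℓ) (eps : ℤ) {x : Kum N p}
    (hx : x ∈ XX N p S₀ a₀) : yy N r p eps x ∈ XX (N * r) p S a := by
  rw [mem_XX]
  intro ℓ _ hℓ hℓNr hℓS
  have hℓN : ¬ ℓ ∣ N := fun h => hℓNr (Dvd.dvd.mul_right h r)
  have h1 := (mem_XX.1 hx) ℓ hℓ hℓN (fun h => hℓS (hS₀ h))
  rw [yy, map_sub, map_zsmul, heckeKum_pullA hℓ hℓN hℓNr, heckeKum_pullB hℓ hℓN hℓNr, h1, ha ℓ hℓS,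
    map_zsmul, map_zsmul, smul_sub, smul_comm]

/-- `⟨P(T) v, y⟩ = P(a) ⟨v, y⟩` for an eigenvector `y`. -/
theorem e1NHom_lift {M : ℕ} [NeZero M] (hp : p ≠ 0) (S : Finset ℕ)
    (hS : ∀ q : ℕ, q.Prime → q ∣ M → q ∈ S) (a : ℕ → ℤ) {y : Kum M p} (hy : y ∈ XX M p S a)
    (P : FreeAlgebra ℤ (GP S)) (v : Kum M p) :
    e1NHom hp (FreeAlgebra.lift ℤ (fun ℓ : GP S => heckeT M p (ℓ.good hS)) P v) y
      = FreeAlgebra.lift ℤ (fun ℓ : GP S => a ℓ.1) P • e1NHom hp v y := by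
  induction P using FreeAlgebra.induction generalizing v with
  | grade0 c =>
    rw [AlgHom.commutes, AlgHom.commutes, Module.algebraMap_end_apply, map_zsmul,
      AddMonoidHom.zsmul_apply]
    rfl
  | grade1 ℓ =>
    rw [FreeAlgebra.lift_ι_apply, FreeAlgebra.lift_ι_apply, heckeT_apply]
    have : NeZero ℓ.1 := ⟨ℓ.2.1.ne_zero⟩
    have h1 := (mem_XX.1 hy) ℓ.1 ℓ.2.1 (ℓ.good hS).2.2 ℓ.2.2
    have h2 : e1NHom hp (heckeKum M ℓ.1 ℓ.2.1 (ℓ.good hS).2.2 p v) y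
        = e1NHom hp v (heckeKum M ℓ.1 ℓ.2.1 (ℓ.good hS).2.2 p y) :=
      (hom_eq_iff hp _ _ _ _).2 (e1N_hecke hp ℓ.2.1 (ℓ.good hS).2.2 v y)
    rw [h1, map_zsmul] at h2
    exact h2
  | mul A B hA hB =>
    rw [map_mul, map_mul, Module.End.mul_apply, hA, hB, smul_smul]
  | add A B hA hB =>
    rw [map_add, map_add, LinearMap.add_apply, map_add, AddMonoidHom.add_apply, hA, hB, add_zsmul]

/-- **(IF-D)**. -/
theorem eq_zero (hp : p.Prime) (hr : r.Prime) (hrN : ¬ r ∣ N) (S : Finset ℕ)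
    (hS : ∀ q : ℕ, q.Prime → q ∣ N * r → q ∈ S) (a : ℕ → ℤ) {eps : ℤ} (heps : eps * eps = 1)
    {x : Kum N p} (hx : heckeKum N r hr hrN p x = (eps * ((r : ℤ) + 1)) • x)
    (hy : yy N r p eps x ∈ XX (N * r) p S a) (Pol : FreeAlgebra ℤ (GP S))
    (hPol : ¬ (p : ℤ) ∣ FreeAlgebra.lift ℤ (fun ℓ : GP S => a ℓ.1) Pol)
    (hold : ∀ v : Kum (N * r) p, ∃ u₁ u₂ : Kum N p,
      FreeAlgebra.lift ℤ (fun ℓ : GP S => heckeT (N * r) p (ℓ.good hS)) Pol v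
        = pullA N r p u₁ + pullB N r p u₂) :
    yy N r p eps x = 0 := by
  by_contra hy0
  obtain ⟨b, hb⟩ := e1N_nondeg hp hy0
  apply hb
  have h1 : e1NHom hp.ne_zero b (yy N r p eps x) = 0 := by
    obtain ⟨u₁, u₂, hu⟩ := hold b
    have h2 := e1NHom_lift hp.ne_zero S hS a hy Pol b
    rw [hu, e1NHom_pull_yy hp.ne_zero hr hrN heps hx] at h2
    have h3 : (p : ℤ) • e1NHom hp.ne_zero b (yy N r p eps x) = 0 := by
      rw [← AddMonoidHom.zsmul_apply, ← map_zsmul, natCast_zsmul, Kum.nsmul_eq_zero, map_zero,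
        AddMonoidHom.zero_apply]
    obtain ⟨u, v, huv⟩ : IsCoprime (p : ℤ) (FreeAlgebra.lift ℤ (fun ℓ : GP S => a ℓ.1) Pol) :=
      (Nat.prime_iff_prime_int.1 hp).coprime_iff_not_dvd.2 hPol
    calc e1NHom hp.ne_zero b (yy N r p eps x)
        = (1 : ℤ) • e1NHom hp.ne_zero b (yy N r p eps x) := (one_smul _ _).symm
      _ = (u * (p : ℤ) + v * FreeAlgebra.lift ℤ (fun ℓ : GP S => a ℓ.1) Pol)
            • e1NHom hp.ne_zero b (yy N r p eps x) := by rw [huv]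
      _ = 0 := by rw [add_zsmul, mul_zsmul, mul_zsmul, h3, ← h2, smul_zero, smul_zero, add_zero]
  rw [e1N_symm hp.ne_zero, (hom_eq_zero_iff hp.ne_zero _ _).1 h1, inv_one]

end

end Fermat.Agent.S41.D
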